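import Mathlib
import Fermat.Prelude.Thm_ModularForm_sturm_bound_Gamma0

set_option autoImplicit false

namespace FLTAgent.Quick

open UpperHalfPlane CongruenceSubgroup
open scoped MatrixGroups

theorem Gamma0_one_eq_top : Gamma0 1 = ⊤ := by
  ext A
  simp [Gamma0_mem, Subsingleton.elim (A 1 0 : ZMod 1) 0]

theorem Gamma0_one_index : (Gamma0 1).index = 1 := by
  rw [Gamma0_one_eq_top, Subgroup.index_top]

theorem Gamma0_two_index_le : (Gamma0 2).index ≤ 3 := by
  classical
  let v : SL(2, ℤ) → {w : ZMod 2 × ZMod 2 // w ≠ 0} := fun g =>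
    ⟨((g 0 0 : ZMod 2), (g 1 0 : ZMod 2)), by
      intro h
      simp only [Prod.mk_eq_zero] at h
      have hdet := g.det_coe
      rw [Matrix.det_fin_two] at hdet
      have := congrArg (Int.cast : ℤ → ZMod 2) hdet
      push_cast at this
      rw [h.1, h.2] at this
      simp at this⟩
  let f : SL(2, ℤ) ⧸ Gamma0 2 → {w : ZMod 2 × ZMod 2 // w ≠ 0} := fun q => v q.out
  have hf : Function.Injective f := by
    intro x y hxy
    rw [← QuotientGroup.out_eq' x, ← QuotientGroup.out_eq' y, QuotientGroup.eq]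
    simp only [f, v, Subtype.mk.injEq, Prod.mk.injEq] at hxy
    rw [Gamma0_mem, Matrix.SpecialLinearGroup.coe_mul, Matrix.SpecialLinearGroup.coe_inv,
      Matrix.adjugate_fin_two, Matrix.mul_apply, Fin.sum_univ_two]
    simp only [Matrix.of_apply, Matrix.cons_val', Matrix.cons_val_zero, Matrix.cons_val_one,
      Matrix.cons_val_fin_one, Int.cast_add, Int.cast_mul, Int.cast_neg]
    rw [hxy.1, hxy.2]
    ring
  have h := Nat.card_le_card_of_injective f hf
  have h3 : Nat.card {w : ZMod 2 × ZMod 2 // w ≠ 0} = 3 := by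
    rw [Nat.card_eq_fintype_card]; decide
  rw [h3] at h
  exact h

/-- A cusp form on `Γ₀(N)` whose Sturm bound is zero vanishes. -/
theorem cuspForm_eq_zero_of_small_index {N : ℕ} [NeZero N] {k : ℤ}
    (f : CuspForm (Gamma0 N) k) (h : (k * (Gamma0 N).index).toNat / 12 = 0) : f = 0 := by
  let g : ModularForm (Gamma0 N) k :=
    { toSlashInvariantForm := f.toSlashInvariantForm
      holo' := f.holo'
      bdd_at_cusps' := fun hc γ hγ => (f.zero_at_cusps' hc γ hγ).boundedAtFilter }
  have hg : g = 0 := by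
    refine ModularForm.sturm_bound_Gamma0 N g ?_
    intro n hn
    obtain rfl : n = 0 := by omega
    have hper : (1 : ℝ) ∈ ((Gamma0 N).map (Matrix.SpecialLinearGroup.mapGL ℝ)).strictPeriods := by
      simp
    exact CuspFormClass.qExpansion_coeff_zero f one_pos hper
  apply DFunLike.ext
  intro z
  exact DFunLike.congr_fun hg z

theorem cuspForm_Gamma0_two_eq_zero (f : CuspForm (Gamma0 2) 2) : f = 0 :=
  cuspForm_eq_zero_of_small_index f (by have := Gamma0_two_index_le; omega)

theorem cuspForm_Gamma0_one_eq_zero (f : CuspForm (Gamma0 1) 2) : f = 0 :=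
  cuspForm_eq_zero_of_small_index f (by rw [Gamma0_one_index]; norm_num)

end FLTAgent.Quick
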