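import Mathlib

set_option autoImplicit false

noncomputable section

namespace FLTAgent.Quick

variable {V : Type*} [AddCommGroup V] [Module ℂ V]

/-- `v` is a nonzero common eigenvector of the action with eigen-character `χ`. -/
def IsEigenCharacter {T : Type*} [CommRing T] (act : T →+* Module.End ℂ V) (χ : T →+* ℂ) : Prop :=
  ∃ v : V, v ≠ 0 ∧ ∀ t, act t v = χ t • v

/-- A commuting family stabilising a nonzero subspace has a common eigenvector in it. -/
theorem exists_common_eigenvector [FiniteDimensional ℂ V] {T : Type*}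
    (act : T → Module.End ℂ V) (hcomm : ∀ s t, Commute (act s) (act t))
    (W : Submodule ℂ V) (hW : W ≠ ⊥) (hinv : ∀ t, ∀ v ∈ W, act t v ∈ W) :
    ∃ v ∈ W, v ≠ 0 ∧ ∀ t, ∃ c : ℂ, act t v = c • v := by
  let P : Set (Submodule ℂ V) := {U | U ≤ W ∧ U ≠ ⊥ ∧ ∀ t, ∀ v ∈ U, act t v ∈ U}
  obtain ⟨U, ⟨hUW, hU0, hUinv⟩, hmin⟩ :=
    (wellFounded_lt (α := Submodule ℂ V)).has_min P ⟨W, le_rfl, hW, hinv⟩
  obtain ⟨v, hvU, hv0⟩ := Submodule.exists_mem_ne_zero_of_ne_bot hU0
  refine ⟨v, hUW hvU, hv0, fun t => ?_⟩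
  haveI : Nontrivial U := Submodule.nontrivial_iff_ne_bot.mpr hU0
  obtain ⟨c, hc⟩ := Module.End.exists_eigenvalue ((act t).restrict (hUinv t))
  obtain ⟨w, hw⟩ := hc.exists_hasEigenvector
  have hw' : act t (w : V) = c • (w : V) := congrArg Subtype.val hw.apply_eq_smul
  have hwU' : (U ⊓ (act t).eigenspace c) ∈ P := by
    refine ⟨inf_le_left.trans hUW, ?_, fun s x hx => ⟨hUinv s x hx.1, ?_⟩⟩
    · intro hbot
      have hmem : (w : V) ∈ U ⊓ (act t).eigenspace c :=
        ⟨w.2, Module.End.mem_eigenspace_iff.mpr hw'⟩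
      rw [hbot, Submodule.mem_bot] at hmem
      exact hw.2 (Subtype.ext hmem)
    · rw [SetLike.mem_coe, Module.End.mem_eigenspace_iff]
      have h1 := Module.End.mem_eigenspace_iff.mp hx.2
      rw [← Module.End.mul_apply, (hcomm t s).eq, Module.End.mul_apply, h1, map_smul]
  have heq : U ⊓ (act t).eigenspace c = U :=
    eq_of_le_of_not_lt inf_le_left (hmin _ hwU')
  exact ⟨c, Module.End.mem_eigenspace_iff.mp (inf_eq_left.mp heq hvU)⟩

/-- A nonzero invariant subspace contains a vector giving an eigen-character. -/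
theorem exists_eigenCharacter_in [FiniteDimensional ℂ V] {T : Type*} [CommRing T]
    (act : T →+* Module.End ℂ V) (W : Submodule ℂ V) (hW : W ≠ ⊥)
    (hinv : ∀ t, ∀ v ∈ W, act t v ∈ W) :
    ∃ χ : T →+* ℂ, ∃ v ∈ W, v ≠ 0 ∧ ∀ t, act t v = χ t • v := by
  obtain ⟨v, hvW, hv, h⟩ :=
    exists_common_eigenvector act (fun s t => (Commute.all s t).map act) W hW hinv
  choose c hc using h
  have huniq : ∀ {a b : ℂ}, a • v = b • v → a = b := fun h => smul_left_injective ℂ hv h
  refine ⟨{ toFun := c, map_one' := ?_, map_mul' := fun s t => ?_, map_zero' := ?_,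
            map_add' := fun s t => ?_ }, v, hvW, hv, hc⟩
  · exact huniq (by rw [← hc, map_one, Module.End.one_apply, one_smul])
  · exact huniq (by rw [← hc, map_mul, Module.End.mul_apply, hc, map_smul, hc, smul_smul, mul_comm])
  · exact huniq (by rw [← hc, map_zero, LinearMap.zero_apply, zero_smul])
  · exact huniq (by rw [← hc, map_add, LinearMap.add_apply, hc, hc, add_smul])

/-- An element killed by all eigen-characters acts nilpotently. -/
theorem isNilpotent_act_of_forall_eigenCharacter [FiniteDimensional ℂ V] {T : Type*} [CommRing T]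
    (act : T →+* Module.End ℂ V) (t : T) (h : ∀ χ, IsEigenCharacter act χ → χ t = 0) :
    IsNilpotent (act t) := by
  have hev : ∀ c : ℂ, (act t).HasEigenvalue c → c = 0 := by
    intro c hc
    obtain ⟨χ, v, hvW, hv, hχ⟩ := exists_eigenCharacter_in act ((act t).eigenspace c) hc
      (fun s x hx => by
        rw [Module.End.mem_eigenspace_iff] at hx ⊢
        rw [← Module.End.mul_apply, ((Commute.all t s).map act).eq, Module.End.mul_apply, hx,
          map_smul])
    have h1 := h χ ⟨v, hv, hχ⟩
    rw [Module.End.mem_eigenspace_iff, hχ t, h1, zero_smul] at hvW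
    exact (smul_eq_zero.mp hvW.symm).resolve_right hv
  rw [LinearMap.isNilpotent_iff_charpoly]
  have hroots : (act t).charpoly.roots = Multiset.replicate (Module.finrank ℂ V) 0 := by
    rw [Multiset.eq_replicate]
    refine ⟨?_, fun c hc => hev c ?_⟩
    · rw [← (IsAlgClosed.splits (act t).charpoly).natDegree_eq_card_roots,
        LinearMap.charpoly_natDegree]
    · rw [Module.End.hasEigenvalue_iff_isRoot_charpoly]
      exact Polynomial.isRoot_of_mem_roots hc
  conv_lhs => rw [(IsAlgClosed.splits (act t).charpoly).eq_prod_roots_of_monic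
    (LinearMap.charpoly_monic _), hroots]
  simp

/-- The ring homomorphisms to `ℂ` from a ring finite over `ℤ` form a finite set. -/
theorem finite_ringHom_complex (T : Type*) [CommRing T] [Module.Finite ℤ T] :
    Finite (T →+* ℂ) := by
  classical
  obtain ⟨n, s, hs⟩ := Module.Finite.exists_fin (R := ℤ) (M := T)
  have hint : ∀ i, IsIntegral ℤ (s i) := fun i => Algebra.IsIntegral.isIntegral _
  have hfin : Finite (∀ i, {z : ℂ // z ∈ ((minpoly ℤ (s i)).map (Int.castRingHom ℂ)).roots}) := by
    infer_instance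
  refine Finite.of_injective (β := ∀ i, {z : ℂ // z ∈ ((minpoly ℤ (s i)).map (Int.castRingHom ℂ)).roots})
    (fun χ i => ⟨χ (s i), ?_⟩) ?_
  · rw [Polynomial.mem_roots ((Polynomial.map_monic_ne_zero (minpoly.monic (hint i)))),
      Polynomial.IsRoot, Polynomial.eval_map]
    have := Polynomial.hom_eval₂ (minpoly ℤ (s i)) (algebraMap ℤ T) χ (s i)
    rw [← Polynomial.aeval_def, minpoly.aeval, map_zero] at this
    rw [this]
    congr 1
    exact RingHom.ext_int _ _
  · intro χ ψ h
    have h' : (χ.toAddMonoidHom.toIntLinearMap : T →ₗ[ℤ] ℂ) = ψ.toAddMonoidHom.toIntLinearMap := by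
      refine LinearMap.ext_on_range hs fun i => ?_
      exact congrArg Subtype.val (congrFun h i)
    exact RingHom.ext fun x => LinearMap.congr_fun h' x

/-- Eigen-characters lift primes: `ker χ ≤ P` for some eigen-character `χ`. -/
theorem exists_isCommonEigen_le_prime [FiniteDimensional ℂ V] {T : Type*} [CommRing T]
    [Module.Finite ℤ T] (act : T →+* Module.End ℂ V) (hinj : Function.Injective act)
    (P : Ideal T) [hP : P.IsPrime] :
    ∃ χ : T →+* ℂ, RingHom.ker χ ≤ P ∧ ∃ v : V, v ≠ 0 ∧ ∀ t, act t v = χ t • v := by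
  classical
  haveI := finite_ringHom_complex T
  let E : Finset (T →+* ℂ) := (Set.toFinite {χ | IsEigenCharacter act χ}).toFinset
  have hE : ∀ χ, χ ∈ E ↔ IsEigenCharacter act χ := fun χ => Set.Finite.mem_toFinset _
  have hle : E.inf (fun χ => RingHom.ker χ) ≤ P := by
    intro t ht
    rw [Submodule.mem_finsetInf] at ht
    have hnil : IsNilpotent (act t) := isNilpotent_act_of_forall_eigenCharacter act t
      fun χ hχ => ht χ ((hE χ).mpr hχ)
    obtain ⟨m, hm⟩ := hnil
    refine hP.mem_of_pow_mem m ?_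
    have h0 : t ^ m = 0 := hinj (by rw [map_pow, hm, map_zero])
    rw [h0]
    exact P.zero_mem
  obtain ⟨χ, hχ, hχP⟩ := hP.inf_le'.mp hle
  exact ⟨χ, hχP, (hE χ).mp hχ⟩

/-- A character to `ℂ` of a ring finite over `ℤ`, with values in the algebraic integers. -/
def toIntegralClosure {T : Type*} [CommRing T] [Module.Finite ℤ T] (χ : T →+* ℂ) :
    T →+* integralClosure ℤ ℂ :=
  χ.codRestrict (integralClosure ℤ ℂ) fun t =>
    (Algebra.IsIntegral.isIntegral t).map χ.toIntAlgHom

@[simp] theorem coe_toIntegralClosure {T : Type*} [CommRing T] [Module.Finite ℤ T] (χ : T →+* ℂ)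
    (t : T) : ((toIntegralClosure χ t : integralClosure ℤ ℂ) : ℂ) = χ t := rfl

theorem exists_maximal_comap_eq {T : Type*} [CommRing T] [Module.Finite ℤ T] (χ : T →+* ℂ)
    (P : Ideal T) [P.IsMaximal] (h : RingHom.ker χ ≤ P) :
    ∃ M : Ideal (integralClosure ℤ ℂ), M.IsMaximal ∧ M.comap (toIntegralClosure χ) = P := by
  let : Algebra T (integralClosure ℤ ℂ) := (toIntegralClosure χ).toAlgebra
  have : Algebra.IsIntegral T (integralClosure ℤ ℂ) := by
    have : IsScalarTower ℤ T (integralClosure ℤ ℂ) := IsScalarTower.of_algebraMap_eq' (RingHom.ext_int _ _)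
    exact Algebra.IsIntegral.tower_top ℤ
  refine Ideal.exists_ideal_over_maximal_of_isIntegral P fun t ht => h ?_
  exact congrArg Subtype.val (show toIntegralClosure χ t = 0 from ht)

end FLTAgent.Quick
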