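import Fermat.Agent.Quick.CuspCoeff
import Fermat.Agent.Quick.EigenChar
import Fermat.Prelude.Def_CuspForm_HeckeLocal

set_option autoImplicit false

noncomputable section

namespace FLTAgent.Quick

open UpperHalfPlane CongruenceSubgroup ModularFormClass

/-! ### Coefficient sequences of eigenvectors -/

section Sequence

variable {N : ℕ} {c lam : ℕ → ℂ}
  (hrec : ∀ ℓ : ℕ, ℓ.Prime → ∀ n,
    c (n * ℓ) = lam ℓ * c n - (if ¬ ℓ ∣ N ∧ ℓ ∣ n then (ℓ : ℂ) * c (n / ℓ) else 0))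

include hrec

theorem seq_eq_zero_of_one (h1 : c 1 = 0) : ∀ n, 0 < n → c n = 0 := by
  intro n
  induction n using Nat.strong_induction_on with
  | _ n ih =>
    intro hn
    rcases eq_or_ne n 1 with rfl | hn1
    · exact h1
    have hℓ := Nat.minFac_prime hn1
    obtain ⟨m, hm⟩ := Nat.minFac_dvd n
    generalize n.minFac = ℓ at hℓ hm
    subst hm
    have hm0 : 0 < m := Nat.pos_of_mul_pos_left hn
    rw [mul_comm, hrec ℓ hℓ, ih m (lt_mul_of_one_lt_left hm0 hℓ.one_lt) hm0, mul_zero]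
    split_ifs with h
    · rw [ih (m / ℓ) ((Nat.div_le_self _ _).trans_lt (lt_mul_of_one_lt_left hm0 hℓ.one_lt))
        (Nat.div_pos (Nat.le_of_dvd hm0 h.2) hℓ.pos), mul_zero, sub_zero]
    · rw [sub_zero]

theorem seq_prime (h1 : c 1 = 1) {ℓ : ℕ} (hℓ : ℓ.Prime) : c ℓ = lam ℓ := by
  have := hrec ℓ hℓ 1
  rw [one_mul, h1, mul_one, if_neg (fun h => hℓ.one_lt.ne' (Nat.dvd_one.mp h.2))] at this
  simpa using this

theorem seq_mul_of_coprime (h1 : c 1 = 1) :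
    ∀ m n : ℕ, m.Coprime n → c (m * n) = c m * c n := by
  intro m
  induction m using Nat.strong_induction_on with
  | _ m ih =>
    intro n hmn
    rcases eq_or_ne m 1 with rfl | hm1
    · rw [one_mul, h1, one_mul]
    rcases Nat.eq_zero_or_pos m with rfl | hm
    · obtain rfl : n = 1 := (Nat.coprime_zero_left n).mp hmn
      rw [mul_one, h1, mul_one]
    have hℓ := Nat.minFac_prime hm1
    obtain ⟨m', hm'⟩ := Nat.minFac_dvd m
    generalize m.minFac = ℓ at hℓ hm'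
    subst hm'
    have hm0 : 0 < m' := Nat.pos_of_mul_pos_left hm
    have hlt : m' < ℓ * m' := lt_mul_of_one_lt_left hm0 hℓ.one_lt
    have hℓn : ℓ.Coprime n := hmn.coprime_mul_right
    have hm'n : m'.Coprime n := hmn.coprime_mul_left
    have hdvd : ℓ ∣ m' * n ↔ ℓ ∣ m' :=
      ⟨fun h => hℓn.dvd_of_dvd_mul_right h, fun h => h.mul_right n⟩
    rw [show ℓ * m' * n = (m' * n) * ℓ by ring, hrec ℓ hℓ, show ℓ * m' = m' * ℓ from mul_comm _ _,
      hrec ℓ hℓ, ih m' hlt n hm'n, sub_mul]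
    congr 1
    · ring
    simp only [hdvd]
    split_ifs with h
    · rw [← Nat.div_mul_right_comm h.2,
        ih (m' / ℓ) ((Nat.div_le_self _ _).trans_lt hlt) n
          (hm'n.coprime_dvd_left (Nat.div_dvd_of_dvd h.2))]
      ring
    · rw [zero_mul]

theorem seq_prime_pow (h1 : c 1 = 1) {ℓ : ℕ} (hℓ : ℓ.Prime) (r : ℕ) :
    c (ℓ ^ (r + 2)) = c ℓ * c (ℓ ^ (r + 1)) - if ¬ ℓ ∣ N then (ℓ : ℂ) * c (ℓ ^ r) else 0 := by
  rw [pow_succ, hrec ℓ hℓ, seq_prime hrec h1 hℓ]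
  congr 1
  simp only [dvd_pow_self ℓ (Nat.succ_ne_zero r), and_true]
  rw [pow_succ, Nat.mul_div_left _ hℓ.pos]

end Sequence

variable {N : ℕ} [NeZero N]

/-- An eigenvector of all `T_ℓ`, `U_q` is a multiple of a normalised eigenform. -/
theorem exists_normalized_of_eigenvector (v : CuspForm (Gamma0 N) 2) (hv : v ≠ 0) (lam : ℕ → ℂ)
    (hT : ∀ (ℓ : ℕ) (hℓ : ℓ.Prime) (hℓN : ¬ ℓ ∣ N), CuspForm.heckeTLin 2 hℓ hℓN v = lam ℓ • v)
    (hU : ∀ (q : ℕ), q.Prime → ∀ (hqN : q ∣ N), CuspForm.heckeULin 2 hqN v = lam q • v) :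
    ∃ f : CuspForm (Gamma0 N) 2, f.IsNormalizedEigenform ∧ (∃ c : ℂ, f = c • v) ∧
      ∀ ℓ : ℕ, ℓ.Prime → qCoeff f ℓ = lam ℓ := by
  have hrec : ∀ (w : ℂ), ∀ ℓ : ℕ, ℓ.Prime → ∀ n, qCoeff ⇑(w • v) (n * ℓ) =
      lam ℓ * qCoeff ⇑(w • v) n -
        (if ¬ ℓ ∣ N ∧ ℓ ∣ n then (ℓ : ℂ) * qCoeff ⇑(w • v) (n / ℓ) else 0) := by
    intro w ℓ hℓ n
    by_cases hℓN : ℓ ∣ N
    · have h : CuspForm.heckeULin 2 hℓN (w • v) = lam ℓ • (w • v) := by
        rw [map_smul, hU ℓ hℓ hℓN, smul_comm]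
      have h' := congrArg (fun g : CuspForm (Gamma0 N) 2 => qCoeff g n) h
      rw [if_neg (fun h => h.1 hℓN), sub_zero]
      simp only [qCoeff_heckeULin hℓ hℓN, qCoeff_smul'] at h' ⊢
      exact h'
    · have h : CuspForm.heckeTLin 2 hℓ hℓN (w • v) = lam ℓ • (w • v) := by
        rw [map_smul, hT ℓ hℓ hℓN, smul_comm]
      have h' := congrArg (fun g : CuspForm (Gamma0 N) 2 => qCoeff g n) h
      simp only [qCoeff_heckeTLin hℓ hℓN, qCoeff_smul'] at h'
      simp only [qCoeff_smul', hℓN, not_false_eq_true, true_and]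
      norm_num at h'
      linear_combination h'
  have h1 : qCoeff v 1 ≠ 0 := by
    intro h
    refine hv (eq_zero_of_qCoeff_eq_zero fun n => ?_)
    rcases Nat.eq_zero_or_pos n with rfl | hn
    · exact qCoeff_zero_index v
    · have := seq_eq_zero_of_one (hrec 1) (by rwa [one_smul]) n hn
      rwa [one_smul] at this
  have hone : qCoeff ⇑((qCoeff v 1)⁻¹ • v) 1 = 1 := by
    rw [qCoeff_smul', inv_mul_cancel₀ h1]
  refine ⟨(qCoeff v 1)⁻¹ • v, ⟨hone, seq_mul_of_coprime (hrec _) hone, ?_, ?_⟩, ⟨_, rfl⟩,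
    fun ℓ hℓ => seq_prime (hrec _) hone hℓ⟩
  · intro p r hp hpN
    rw [seq_prime_pow (hrec _) hone hp r, if_pos hpN]
  · intro p r hp hpN
    rw [seq_prime_pow (hrec _) hone hp r, if_neg (not_not.mpr hpN), sub_zero]

/-- A normalised eigenform is an eigenvector of `T_ℓ`. -/
theorem heckeTLin_eigenform {f : CuspForm (Gamma0 N) 2} (hf : f.IsNormalizedEigenform) {ℓ : ℕ}
    (hℓ : ℓ.Prime) (hℓN : ¬ ℓ ∣ N) :
    CuspForm.heckeTLin 2 hℓ hℓN f = qCoeff f ℓ • f := by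
  refine eq_of_qCoeff_eq fun n => ?_
  rw [qCoeff_heckeTLin, qCoeff_smul']
  rcases eq_or_ne n 0 with rfl | hn
  · simp [qCoeff_zero_index]
  obtain ⟨e, m, hm, rfl⟩ := Nat.exists_eq_pow_mul_and_not_dvd hn ℓ hℓ.ne_one
  have hcop : ∀ r, (ℓ ^ r).Coprime m := fun r =>
    (hℓ.coprime_iff_not_dvd.mpr hm).pow_left r
  rw [show ℓ ^ e * m * ℓ = ℓ ^ (e + 1) * m by ring, hf.qCoeff_mul_of_coprime _ _ (hcop _)]
  rcases e with _ | e
  · simp [hm]
  · rw [if_pos (Dvd.dvd.mul_right (dvd_pow_self ℓ (Nat.succ_ne_zero e)) m),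
      show ℓ ^ (e + 1) * m / ℓ = ℓ ^ e * m by
        rw [pow_succ, mul_right_comm, Nat.mul_div_left _ hℓ.pos],
      hf.qCoeff_mul_of_coprime _ _ (hcop _), hf.qCoeff_mul_of_coprime _ _ (hcop _),
      hf.qCoeff_prime_pow_of_not_dvd ℓ e hℓ hℓN]
    norm_num
    ring

/-- A normalised eigenform is an eigenvector of `U_q`. -/
theorem heckeULin_eigenform {f : CuspForm (Gamma0 N) 2} (hf : f.IsNormalizedEigenform) {q : ℕ}
    (hq : q.Prime) (hqN : q ∣ N) :
    CuspForm.heckeULin 2 hqN f = qCoeff f q • f := by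
  refine eq_of_qCoeff_eq fun n => ?_
  rw [qCoeff_heckeULin hq, qCoeff_smul']
  rcases eq_or_ne n 0 with rfl | hn
  · simp [qCoeff_zero_index]
  obtain ⟨e, m, hm, rfl⟩ := Nat.exists_eq_pow_mul_and_not_dvd hn q hq.ne_one
  have hcop : ∀ r, (q ^ r).Coprime m := fun r => (hq.coprime_iff_not_dvd.mpr hm).pow_left r
  rw [show q ^ e * m * q = q ^ (e + 1) * m by ring, hf.qCoeff_mul_of_coprime _ _ (hcop _),
    hf.qCoeff_mul_of_coprime _ _ (hcop _)]
  rcases e with _ | e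
  · rw [zero_add, pow_one, pow_zero, hf.qCoeff_one, one_mul]
  · rw [hf.qCoeff_prime_pow_of_dvd q e hq hqN]
    ring

omit [NeZero N] in
theorem eigenform_ne_zero {f : CuspForm (Gamma0 N) 2} (hf : f.IsNormalizedEigenform) : f ≠ 0 := by
  rintro rfl
  have h := hf.qCoeff_one
  rw [show qCoeff ⇑(0 : CuspForm (Gamma0 N) 2) 1 = 0 from (qCoeffLin N 2 1).map_zero] at h
  exact zero_ne_one h

/-- The inclusion of the Hecke algebra as a ring homomorphism. -/
def heckeAct (N : ℕ) [NeZero N] (S : Set ℕ) :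
    CuspForm.heckeAlgebra N 2 S →+* Module.End ℂ (CuspForm (Gamma0 N) 2) :=
  (CuspForm.heckeAlgebra N 2 S).val.toRingHom

theorem heckeAct_injective (N : ℕ) [NeZero N] (S : Set ℕ) : Function.Injective (heckeAct N S) :=
  Subtype.val_injective

theorem eigenform_eigen {f : CuspForm (Gamma0 N) 2} (hf : f.IsNormalizedEigenform) {S : Set ℕ}
    (t : CuspForm.heckeAlgebra N 2 S) : ∃ c : ℂ, heckeAct N S t f = c • f := by
  obtain ⟨t, ht⟩ := t
  show ∃ c : ℂ, t f = c • f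
  induction ht using Algebra.adjoin_induction with
  | mem x hx =>
    rcases hx with ⟨ℓ, hℓ, hℓN, -, rfl⟩ | ⟨q, hqN, hq, -, rfl⟩
    · exact ⟨_, heckeTLin_eigenform hf hℓ hℓN⟩
    · exact ⟨_, heckeULin_eigenform hf hq hqN⟩
  | algebraMap r => exact ⟨r, by simp [Int.cast_smul_eq_zsmul]⟩
  | add x y _ _ hx hy =>
    obtain ⟨a, ha⟩ := hx
    obtain ⟨b, hb⟩ := hy
    exact ⟨a + b, by rw [LinearMap.add_apply, ha, hb, add_smul]⟩
  | mul x y _ _ hx hy =>
    obtain ⟨a, ha⟩ := hx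
    obtain ⟨b, hb⟩ := hy
    exact ⟨b * a, by rw [Module.End.mul_apply, hb, map_smul, ha, smul_smul]⟩

/-- The eigen-character of a normalised eigenform on the Hecke algebra. -/
def eigenformChar {f : CuspForm (Gamma0 N) 2} (hf : f.IsNormalizedEigenform) (S : Set ℕ) :
    CuspForm.heckeAlgebra N 2 S →+* ℂ where
  toFun t := qCoeff (heckeAct N S t f) 1
  map_one' := by rw [map_one, Module.End.one_apply, hf.qCoeff_one]
  map_mul' s t := by
    obtain ⟨a, ha⟩ := eigenform_eigen hf s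
    obtain ⟨b, hb⟩ := eigenform_eigen hf t
    rw [map_mul, Module.End.mul_apply, hb, map_smul, ha, qCoeff_smul', qCoeff_smul', qCoeff_smul',
      hf.qCoeff_one]
    ring
  map_zero' := by
    rw [map_zero, LinearMap.zero_apply]
    exact (qCoeffLin N 2 1).map_zero
  map_add' s t := by rw [map_add, LinearMap.add_apply, qCoeff_add']

theorem eigenformChar_spec {f : CuspForm (Gamma0 N) 2} (hf : f.IsNormalizedEigenform) {S : Set ℕ}
    (t : CuspForm.heckeAlgebra N 2 S) : heckeAct N S t f = eigenformChar hf S t • f := by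
  obtain ⟨a, ha⟩ := eigenform_eigen hf t
  have : eigenformChar hf S t = a := by
    show qCoeff (heckeAct N S t f) 1 = a
    rw [ha, qCoeff_smul', hf.qCoeff_one, mul_one]
  rw [this, ha]

theorem eigenformChar_T {f : CuspForm (Gamma0 N) 2} (hf : f.IsNormalizedEigenform) {S : Set ℕ}
    {ℓ : ℕ} (hℓ : ℓ.Prime) (hℓN : ¬ ℓ ∣ N) (hℓS : ℓ ∉ S) :
    eigenformChar hf S (CuspForm.heckeAlgebra.T hℓ hℓN hℓS) = qCoeff f ℓ := by
  show qCoeff (CuspForm.heckeTLin 2 hℓ hℓN f) 1 = _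
  rw [heckeTLin_eigenform hf hℓ hℓN, qCoeff_smul', hf.qCoeff_one, mul_one]

theorem eigenformChar_U {f : CuspForm (Gamma0 N) 2} (hf : f.IsNormalizedEigenform) {S : Set ℕ}
    {q : ℕ} (hq : q.Prime) (hqN : q ∣ N) (hqS : q ∉ S) :
    eigenformChar hf S (CuspForm.heckeAlgebra.U hq hqN hqS) = qCoeff f q := by
  show qCoeff (CuspForm.heckeULin 2 hqN f) 1 = _
  rw [heckeULin_eigenform hf hq hqN, qCoeff_smul', hf.qCoeff_one, mul_one]

theorem moduleFinite_heckeAlgebra (N : ℕ) [NeZero N] (S : Set ℕ)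
    (hint : CuspForm.HasIntegralStructure N 2) :
    Module.Finite ℤ (CuspForm.heckeAlgebra N 2 S) :=
  Module.Finite.of_injective (CuspForm.latticeRestrictHom N S).toLinearMap
    (CuspForm.latticeRestrictHom_bijective N S hint).injective

/-- A common eigenvector for the full Hecke algebra gives a normalised eigenform. -/
theorem exists_normalized_of_eigenCharacter (χ : CuspForm.heckeAlgebra N 2 ∅ →+* ℂ)
    (v : CuspForm (Gamma0 N) 2) (hv : v ≠ 0) (h : ∀ t, heckeAct N ∅ t v = χ t • v) :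
    ∃ f : CuspForm (Gamma0 N) 2, f.IsNormalizedEigenform ∧ (∃ c : ℂ, f = c • v) ∧
      (∀ (ℓ : ℕ) (hℓ : ℓ.Prime) (hℓN : ¬ ℓ ∣ N),
        χ (CuspForm.heckeAlgebra.T hℓ hℓN (Set.notMem_empty _)) = qCoeff f ℓ) ∧
      ∀ (q : ℕ) (hq : q.Prime) (hqN : q ∣ N),
        χ (CuspForm.heckeAlgebra.U hq hqN (Set.notMem_empty _)) = qCoeff f q := by
  classical
  let lam : ℕ → ℂ := fun ℓ => if hℓ : ℓ.Prime then (if hℓN : ℓ ∣ N
      then χ (CuspForm.heckeAlgebra.U hℓ hℓN (Set.notMem_empty _))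
      else χ (CuspForm.heckeAlgebra.T hℓ hℓN (Set.notMem_empty _))) else 0
  obtain ⟨f, hf, hfv, hlam⟩ := exists_normalized_of_eigenvector v hv lam
    (fun ℓ hℓ hℓN => by
      simp only [lam, dif_pos hℓ, dif_neg hℓN]
      exact h (CuspForm.heckeAlgebra.T hℓ hℓN (Set.notMem_empty _)))
    (fun q hq hqN => by
      simp only [lam, dif_pos hq, dif_pos hqN]
      exact h (CuspForm.heckeAlgebra.U hq hqN (Set.notMem_empty _)))
  refine ⟨f, hf, hfv, fun ℓ hℓ hℓN => ?_, fun q hq hqN => ?_⟩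
  · rw [hlam ℓ hℓ]; simp only [lam, dif_pos hℓ, dif_neg hℓN]
  · rw [hlam q hq]; simp only [lam, dif_pos hq, dif_pos hqN]

/-- Deligne–Serre lifting: a maximal ideal of the full Hecke algebra comes from an eigenform. -/
theorem exists_eigenform_of_prime (hint : CuspForm.HasIntegralStructure N 2)
    (P : Ideal (CuspForm.heckeAlgebra N 2 ∅)) [P.IsMaximal] :
    ∃ (f : CuspForm (Gamma0 N) 2) (_ : f.IsNormalizedEigenform)
      (χ : CuspForm.heckeAlgebra N 2 ∅ →+* integralClosure ℤ ℂ)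
      (M : Ideal (integralClosure ℤ ℂ)), M.IsMaximal ∧ M.comap χ = P ∧
      (∀ (ℓ : ℕ) (hℓ : ℓ.Prime) (hℓN : ¬ ℓ ∣ N),
        (χ (CuspForm.heckeAlgebra.T hℓ hℓN (Set.notMem_empty _)) : ℂ) = qCoeff f ℓ) ∧
      ∀ (q : ℕ) (hq : q.Prime) (hqN : q ∣ N),
        (χ (CuspForm.heckeAlgebra.U hq hqN (Set.notMem_empty _)) : ℂ) = qCoeff f q := by
  have := moduleFinite_heckeAlgebra N ∅ hint
  have := finiteDimensional_cuspForm N 2
  obtain ⟨χ, hχP, v, hv, hχ⟩ :=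
    exists_isCommonEigen_le_prime (heckeAct N ∅) (heckeAct_injective N ∅) P
  obtain ⟨f, hf, -, hT, hU⟩ := exists_normalized_of_eigenCharacter χ v hv hχ
  obtain ⟨M, hM, hMP⟩ := exists_maximal_comap_eq χ P hχP
  exact ⟨f, hf, toIntegralClosure χ, M, hM, hMP, hT, hU⟩

end FLTAgent.Quick
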