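import Fermat.Agent.Quick.HeckeEigenform
import Fermat.Prelude.Def_CuspForm_IntegralLattice
import Fermat.Prelude.Def_FormalHecke_Eigensystem
import Fermat.Prelude.Def_ModularForm_EisensteinChiNegThree

set_option autoImplicit false

noncomputable section

namespace FLTAgent.Quick

open UpperHalfPlane CongruenceSubgroup ModularFormClass EisensteinWeightOne

variable {N : ℕ} [NeZero N]

omit [NeZero N] in
theorem mem_qIntegralSet_iff {f : CuspForm (Gamma0 N) 2} :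
    f ∈ CuspForm.qIntegralSet N ↔ ∀ n : ℕ, ∃ m : ℤ, qCoeff f n = (m : ℂ) := by
  constructor
  · intro h n
    obtain ⟨m, hm⟩ := Subring.mem_bot.mp (h n)
    exact ⟨m, hm.symm⟩
  · intro h n
    obtain ⟨m, hm⟩ := h n
    exact Subring.mem_bot.mpr ⟨m, hm.symm⟩

omit [NeZero N] in
theorem hasIntegralStructure_of_hasIntegralBasis (h : CuspForm.HasIntegralBasis N) :
    CuspForm.HasIntegralStructure N 2 := by
  refine top_unique (h.ge.trans (Submodule.span_mono fun f hf => ?_))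
  exact mem_intLattice_iff.mpr (mem_qIntegralSet_iff.mp hf)

/-- An integral form which is an eigenform mod `p` gives a character of the Hecke algebra. -/
theorem exists_residualChar {p : ℕ} [hp : Fact p.Prime] {S : Set ℕ}
    (f : CuspForm (Gamma0 N) 2) (c : ℕ → ℤ)
    (hc : ∀ n, qCoeff f n = (c n : ℂ)) (h1 : (c 1 : ZMod p) = 1) (lam : ℕ → ZMod p)
    (hT : ∀ ℓ : ℕ, ℓ.Prime → ¬ ℓ ∣ N → ℓ ∉ S → ∀ n, (c (n * ℓ) : ZMod p)
      + (if ℓ ∣ n then (ℓ : ZMod p) * c (n / ℓ) else 0) = lam ℓ * c n)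
    (hU : ∀ q : ℕ, q.Prime → q ∣ N → q ∉ S → ∀ n, (c (n * q) : ZMod p) = lam q * c n) :
    ∃ θ : CuspForm.heckeAlgebra N 2 S →+* ZMod p,
      ∀ (ℓ : ℕ) (hℓ : ℓ.Prime) (hℓN : ¬ ℓ ∣ N) (hℓS : ℓ ∉ S),
        θ (CuspForm.heckeAlgebra.T hℓ hℓN hℓS) = lam ℓ := by
  let M : Submodule ℤ (CuspForm (Gamma0 N) 2) := CuspForm.intLattice N 2
  have hstab : ∀ t : CuspForm.heckeAlgebra N 2 S, ∀ g ∈ M, heckeAct N S t g ∈ M :=
    fun t g hg => CuspForm.mem_intLattice_of_mem_heckeAlgebra one_le_two t.2 hg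
  have hfM : f ∈ M := mem_intLattice_iff.mpr fun n => ⟨c n, hc n⟩
  -- `red g n` is the reduction mod `p` of the `n`th coefficient of an integral form `g`
  have hred : ∀ g : M, ∀ n, ∃ m : ℤ, qCoeff (g : CuspForm (Gamma0 N) 2) n = (m : ℂ) :=
    fun g => mem_intLattice_iff.mp g.2
  choose co hco using hred
  have huniq : ∀ (g : M) (n : ℕ) (m : ℤ),
      qCoeff (g : CuspForm (Gamma0 N) 2) n = (m : ℂ) → co g n = m :=
    fun g n m h => Int.cast_injective (α := ℂ) ((hco g n).symm.trans h)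
  -- congruence of integral forms mod `p`
  let Q : M → M → Prop := fun g g' => ∀ n, (co g n : ZMod p) = co g' n
  have hcong : ∀ g : M, (∀ n, (co g n : ZMod p) = 0) →
      ∀ t : CuspForm.heckeAlgebra N 2 S, ∀ n,
        (co ⟨heckeAct N S t g, hstab t g g.2⟩ n : ZMod p) = 0 := by
    intro g hg t n
    have hg' : ∀ n, ∃ m : ℤ, co g n = p * m := fun n =>
      (ZMod.intCast_zmod_eq_zero_iff_dvd _ p).mp (hg n)
    choose d hd using hg'
    have hp0 : (p : ℂ) ≠ 0 := Nat.cast_ne_zero.mpr hp.out.ne_zero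
    have hmem : ((p : ℂ)⁻¹ • (g : CuspForm (Gamma0 N) 2)) ∈ M := by
      refine mem_intLattice_iff.mpr fun n => ⟨d n, ?_⟩
      rw [qCoeff_smul', hco, hd, Int.cast_mul, Int.cast_natCast, inv_mul_cancel_left₀ hp0]
    obtain ⟨m, hm⟩ := mem_intLattice_iff.mp (hstab t _ hmem) n
    rw [huniq _ n ((p : ℤ) * m) ?_]
    · push_cast; simp
    · show qCoeff (heckeAct N S t g) n = _
      rw [map_smul, qCoeff_smul'] at hm
      rw [Int.cast_mul, ← hm, Int.cast_natCast, mul_inv_cancel_left₀ hp0]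
  let F : M := ⟨f, hfM⟩
  have hcoF : ∀ n, co F n = c n := fun n => huniq F n _ (hc n)
  let θ₀ : CuspForm.heckeAlgebra N 2 S → ZMod p := fun t =>
    (co ⟨heckeAct N S t f, hstab t f hfM⟩ 1 : ZMod p)
  -- `t` is scalar on `f` mod `p`
  let Good : CuspForm.heckeAlgebra N 2 S → ZMod p → Prop := fun t r =>
    ∀ n, (co ⟨heckeAct N S t f, hstab t f hfM⟩ n : ZMod p) = r * c n
  have hθ₀ : ∀ {t r}, Good t r → θ₀ t = r := fun {t r} h => by
    show (co ⟨heckeAct N S t f, _⟩ 1 : ZMod p) = r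
    rw [h 1, h1, mul_one]
  have hgen_T : ∀ (ℓ : ℕ) (hℓ : ℓ.Prime) (hℓN : ¬ ℓ ∣ N) (hℓS : ℓ ∉ S),
      Good (CuspForm.heckeAlgebra.T hℓ hℓN hℓS) (lam ℓ) := by
    intro ℓ hℓ hℓN hℓS n
    rw [huniq _ n (c (n * ℓ) + if ℓ ∣ n then (ℓ : ℤ) * c (n / ℓ) else 0) ?_, ← hT ℓ hℓ hℓN hℓS n]
    · push_cast
      rfl
    · show qCoeff (CuspForm.heckeTLin 2 hℓ hℓN f) n = _
      rw [qCoeff_heckeTLin, hc, hc]
      push_cast
      norm_num
  have hgen_U : ∀ (q : ℕ) (hq : q.Prime) (hqN : q ∣ N) (hqS : q ∉ S),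
      Good (CuspForm.heckeAlgebra.U hq hqN hqS) (lam q) := by
    intro q hq hqN hqS n
    rw [huniq _ n (c (n * q)) ?_, ← hU q hq hqN hqS n]
    show qCoeff (CuspForm.heckeULin 2 hqN f) n = _
    rw [qCoeff_heckeULin hq, hc]
  have hint : ∀ z : ℤ, Good z z := by
    intro z n
    rw [huniq _ n (z * c n) ?_, Int.cast_mul]
    show qCoeff (heckeAct N S (z : CuspForm.heckeAlgebra N 2 S) f) n = _
    rw [map_intCast, Module.End.intCast_apply, qCoeff_zsmul', hc, Int.cast_mul]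
  have hadd : ∀ {s t a b}, Good s a → Good t b → Good (s + t) (a + b) := by
    intro s t a b hs ht n
    rw [huniq _ n (co ⟨heckeAct N S s f, hstab s f hfM⟩ n + co ⟨heckeAct N S t f, hstab t f hfM⟩ n) ?_]
    · push_cast
      rw [hs n, ht n, add_mul]
    · show qCoeff (heckeAct N S (s + t) f) n = _
      rw [map_add, LinearMap.add_apply, qCoeff_add', Int.cast_add, ← hco, ← hco]
  have hmul : ∀ {s t a b}, Good s a → Good t b → Good (s * t) (b * a) := by
    intro s t a b hs ht n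
    let tf : M := ⟨heckeAct N S t f, hstab t f hfM⟩
    let g : M := tf - (b.cast : ℤ) • F
    have hg : ∀ n, (co g n : ZMod p) = 0 := by
      intro n
      rw [huniq g n (co tf n - (b.cast : ℤ) * c n) ?_]
      · push_cast
        simp [tf, ht n]
      · show qCoeff ⇑((tf : CuspForm (Gamma0 N) 2) - (b.cast : ℤ) • f) n = _
        rw [qCoeff_sub', qCoeff_zsmul', hco, hc, Int.cast_sub, Int.cast_mul]
    have key := hcong g hg s n
    rw [huniq _ n (co ⟨heckeAct N S (s * t) f, hstab _ f hfM⟩ n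
      - (b.cast : ℤ) * co ⟨heckeAct N S s f, hstab s f hfM⟩ n) ?_] at key
    · push_cast at key
      simp only [hs n, sub_eq_zero] at key
      rw [key, mul_assoc]
    · show qCoeff (heckeAct N S s ((tf : CuspForm (Gamma0 N) 2) - (b.cast : ℤ) • f)) n = _
      rw [map_sub, map_zsmul, qCoeff_sub', qCoeff_zsmul', Int.cast_sub, Int.cast_mul, ← hco, ← hco]
      simp [map_mul, Module.End.mul_apply, tf]
  have hex : ∀ t, ∃ r, Good t r := by
    rintro ⟨t, ht⟩
    induction ht using Algebra.adjoin_induction with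
    | mem x hx =>
      rcases hx with ⟨ℓ, hℓ, hℓN, hℓS, rfl⟩ | ⟨q, hqN, hq, hqS, rfl⟩
      · exact ⟨_, hgen_T ℓ hℓ hℓN hℓS⟩
      · exact ⟨_, hgen_U q hq hqN hqS⟩
    | algebraMap r => exact ⟨(r : ZMod p), hint r⟩
    | add x y hx hy ihx ihy =>
      obtain ⟨a, ha⟩ := ihx
      obtain ⟨b, hb⟩ := ihy
      exact ⟨_, hadd ha hb⟩
    | mul x y hx hy ihx ihy =>
      obtain ⟨a, ha⟩ := ihx
      obtain ⟨b, hb⟩ := ihy
      exact ⟨_, hmul ha hb⟩
  refine ⟨{ toFun := θ₀, map_one' := ?_, map_mul' := fun s t => ?_, map_zero' := ?_,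
            map_add' := fun s t => ?_ }, fun ℓ hℓ hℓN hℓS => hθ₀ (hgen_T ℓ hℓ hℓN hℓS)⟩
  · exact hθ₀ (by simpa using hint 1)
  · obtain ⟨a, ha⟩ := hex s
    obtain ⟨b, hb⟩ := hex t
    rw [hθ₀ (hmul ha hb), hθ₀ ha, hθ₀ hb, mul_comm]
  · exact hθ₀ (by simpa using hint 0)
  · obtain ⟨a, ha⟩ := hex s
    obtain ⟨b, hb⟩ := hex t
    rw [hθ₀ (hadd ha hb), hθ₀ ha, hθ₀ hb]

theorem coeff_bridgeProduct_mod_three (a : ℕ → ℤ) (n : ℕ) :
    (3 : ℤ) ∣ (bridgeProduct a).coeff n - a n := by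
  have h : PowerSeries.map (Int.castRingHom (ZMod 3)) (e1Chi3In ℤ) = 1 := by
    ext i
    simp only [e1Chi3In, e1Chi3, PowerSeries.coeff_map, PowerSeries.coeff_mk, PowerSeries.coeff_one,
      eq_intCast, Int.cast_id]
    split_ifs with hi
    · simp
    · rw [Int.cast_mul, show ((6 : ℤ) : ZMod 3) = 0 from rfl, zero_mul]
  refine (ZMod.intCast_zmod_eq_zero_iff_dvd _ 3).mp ?_
  rw [Int.cast_sub, sub_eq_zero]
  have h2 : PowerSeries.map (Int.castRingHom (ZMod 3)) (bridgeProduct a) =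
      PowerSeries.map (Int.castRingHom (ZMod 3)) (PowerSeries.mk a) := by
    rw [bridgeProduct, map_mul, h, mul_one]
  simpa [PowerSeries.coeff_map] using congrArg (PowerSeries.coeff n) h2

theorem chiNegThree_mod_three (ℓ : ℕ) : ((chiNegThree ℓ : ℤ) : ZMod 3) = (ℓ : ZMod 3) := by
  rw [← ZMod.natCast_mod ℓ 3]
  unfold chiNegThree
  rcases (show ℓ % 3 = 0 ∨ ℓ % 3 = 1 ∨ ℓ % 3 = 2 by omega) with h | h | h <;>
    simp [h] <;> rfl

/-- Statement S49: lifting a lattice-realised formal eigensystem to an eigenform. -/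
theorem exists_eigenform_congruent_of_isLatticeRealized
    (h : CuspForm.HasIntegralBasis N) {a : ℕ → ℤ}
    (heig : FormalHecke.IsEigensystem
      (fun ℓ => if ℓ ∣ N then 0 else ((chiNegThree ℓ : ℤ) : ℤ)) a)
    (hreal : CuspForm.IsLatticeRealized N a) :
    ∃ (f : CuspForm (Gamma0 N) 2) (_ : f.IsNormalizedEigenform)
      (𝔪' : Ideal (integralClosure ℤ ℂ)), 𝔪'.IsMaximal ∧
      ((3 : ℕ) : integralClosure ℤ ℂ) ∈ 𝔪' ∧
      ∀ (ℓ : ℕ) (_ : ℓ.Prime) (_ : ¬ ℓ ∣ N),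
        ∃ c : integralClosure ℤ ℂ, (c : ℂ) = ModularFormClass.qCoeff f ℓ ∧
          c - (a ℓ : integralClosure ℤ ℂ) ∈ 𝔪' := by
  have : Fact (Nat.Prime 3) := ⟨Nat.prime_three⟩
  obtain ⟨g, -, af, haf, hcong⟩ := hreal
  have haf' : ∀ n, (af n : ZMod 3) = (a n : ZMod 3) := by
    intro n
    have h3 := dvd_add (hcong n) (coeff_bridgeProduct_mod_three a n)
    rw [sub_add_sub_cancel] at h3
    rw [← sub_eq_zero, ← Int.cast_sub]
    exact (ZMod.intCast_zmod_eq_zero_iff_dvd _ 3).mpr h3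
  obtain ⟨θ, hθ⟩ := exists_residualChar (p := 3) (S := (∅ : Set ℕ)) g af (fun n => (haf n).symm)
    (by rw [haf', heig.1, Int.cast_one]) (fun ℓ => (a ℓ : ZMod 3))
    (fun ℓ hℓ hℓN _ n => by
      have := congrArg (Int.cast : ℤ → ZMod 3) (heig.2 ℓ hℓ n)
      simp only [if_neg hℓN] at this
      push_cast at this
      rw [chiNegThree_mod_three] at this
      rw [mul_comm n ℓ, haf', haf', haf', ← this]
      split_ifs <;> simp)
    (fun q hq hqN _ n => by
      have := congrArg (Int.cast : ℤ → ZMod 3) (heig.2 q hq n)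
      simp only [if_pos hqN, zero_mul, add_zero, Int.cast_mul] at this
      rw [mul_comm n q, haf', haf', ← this])
  have hsurj : Function.Surjective θ := ZMod.ringHom_surjective θ
  have := RingHom.ker_isMaximal_of_surjective θ hsurj
  obtain ⟨f, hf, χ, M, hM, hcomap, hT, -⟩ :=
    exists_eigenform_of_prime (hasIntegralStructure_of_hasIntegralBasis h) (RingHom.ker θ)
  refine ⟨f, hf, M, hM, ?_, fun ℓ hℓ hℓN => ⟨_, hT ℓ hℓ hℓN, ?_⟩⟩
  · rw [← map_natCast χ, ← Ideal.mem_comap, hcomap, RingHom.mem_ker, map_natCast]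
    exact ZMod.natCast_self 3
  · rw [← map_intCast χ, ← map_sub, ← Ideal.mem_comap, hcomap, RingHom.mem_ker, map_sub,
      map_intCast, hθ, sub_self]

end FLTAgent.Quick
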